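/-
S58, brick (d) (helper63): lifting torsion points from the residue field.

`L` an algebraically closed field of characteristic `0`, `A` a valuation subring of `L` lying over
the prime `q`, `W` an integral Weierstrass curve with `Δ ≠ 0` (no hypothesis on the reduction
type), `m ≥ 1` prime to `q`.  Every nonsingular point `(x', y')` of the reduced curve over the
residue field of `A` killed by `m` is the reduction of a point `(a, b)` of `W_L` killed by `m` with
`a, b ∈ A`.  (Generalises `ES/EC/LiftTorsion29.exists_torsion_lift`, which treats prime-field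
points at a prime of good reduction.)
-/
import Mathlib
import Fermat.Prelude.Def_FLTPrelim_Ramification
import Fermat.Prelude.Def_FLTPrelim_Modularity
import Fermat.Agent.ES.EC.LiftTorsion29
import Fermat.Agent.DivPoly.CountFinal

set_option autoImplicit false

open Polynomial WeierstrassCurve WeierstrassCurve.Affine

namespace Fermat.Agent.InertiaMult

open Fermat.Agent.ES.EC.LiftTorsion29

variable {L : Type*} [Field L] [IsAlgClosed L] [DecidableEq L] (A : ValuationSubring L)

/-- **Lifting torsion from the residue field** (any reduction type). -/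
theorem exists_torsion_lift_residue [CharZero L] [DecidableEq (IsLocalRing.ResidueField A)]
    (W : WeierstrassCurve ℤ) (hΔ : W.Δ ≠ 0)
    {q m : ℕ} (hq : q.Prime) (hA : A.LiesOverPrime q) (hm1 : 1 ≤ m) (hqm : ¬ q ∣ m)
    {Vk : Affine (IsLocalRing.ResidueField A)}
    (hVk : Vk = (W.map (Int.castRingHom (IsLocalRing.ResidueField A))).toAffine)
    {VL : Affine L} (hVL : VL = (W.map (Int.castRingHom L)).toAffine)
    {x' y' : IsLocalRing.ResidueField A} (h' : Vk.Nonsingular x' y')
    (hP : m • Point.some x' y' h' = 0) :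
    ∃ (a b : A) (h : VL.Nonsingular (a : L) (b : L)),
      m • Point.some (a : L) (b : L) h = 0 ∧
        IsLocalRing.residue A a = x' ∧ IsLocalRing.residue A b = y' := by
  subst hVk hVL
  set res := IsLocalRing.residue A with hres
  have hΨ' : ((W.map (Int.castRingHom (IsLocalRing.ResidueField A))).ΨSq (m : ℤ)).eval x' = 0 :=
    (Fermat.Agent.DivPoly.CountFinal.nsmul_eq_zero_iff h' m hm1).mp hP
  -- the division polynomial over `A`
  set WA : WeierstrassCurve A := W.map (Int.castRingHom A) with hWA
  have hcomp : res.comp (Int.castRingHom A) = Int.castRingHom (IsLocalRing.ResidueField A) :=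
    RingHom.ext_int _ _
  have hmapres : (WA.ΨSq (m : ℤ)).map res =
      (W.map (Int.castRingHom (IsLocalRing.ResidueField A))).ΨSq (m : ℤ) := by
    rw [hWA, map_ΨSq, map_ΨSq, Polynomial.map_map, hcomp]
  have hroot : ((WA.ΨSq (m : ℤ)).map res).IsRoot x' := by
    rw [hmapres]; exact hΨ'
  have hmu : IsUnit (((m : ℤ) : A)) := by
    refine isUnit_intCast_of_not_dvd A hq hA ?_
    intro hd
    exact hqm (by exact_mod_cast hd)
  have hlc : IsUnit (WA.ΨSq (m : ℤ)).leadingCoeff := by
    rw [WeierstrassCurve.leadingCoeff_ΨSq WA hmu.ne_zero]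
    exact hmu.pow 2
  obtain ⟨a, ha, hat⟩ := exists_root_lift A _ hlc x' hroot
  -- the `y`-coordinate
  set c1 : A := (W.a₁ : A) * a + (W.a₃ : A) with hc1
  set c0 : A := a ^ 3 + (W.a₂ : A) * a ^ 2 + (W.a₄ : A) * a + (W.a₆ : A) with hc0
  set hA' : A[X] := X ^ 2 + (C c1 * X + C (-c0)) with hhA
  have hmon : hA'.Monic :=
    monic_X_pow_add (lt_of_le_of_lt (degree_linear_le) (by norm_num))
  have heq' := (equation_iff _ _).mp h'.1
  simp only [map_a₁, map_a₂, map_a₃, map_a₄, map_a₆, eq_intCast] at heq'
  have hcast : ∀ n : ℤ, res (n : A) = (n : IsLocalRing.ResidueField A) := fun n =>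
    map_intCast res n
  have hat' : res a = x' := hat
  have hrc1 : res c1 = (W.a₁ : IsLocalRing.ResidueField A) * x' +
      (W.a₃ : IsLocalRing.ResidueField A) := by
    rw [hc1, map_add, map_mul, hcast, hcast, hat']
  have hrc0 : res c0 = x' ^ 3 + (W.a₂ : IsLocalRing.ResidueField A) * x' ^ 2 +
      (W.a₄ : IsLocalRing.ResidueField A) * x' + (W.a₆ : IsLocalRing.ResidueField A) := by
    rw [hc0, map_add, map_add, map_add, map_mul, map_mul, map_pow, map_pow, hcast, hcast, hcast,
      hat']
  have hrooty : (hA'.map res).IsRoot y' := by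
    rw [hhA, IsRoot]
    simp only [Polynomial.map_add, Polynomial.map_mul, Polynomial.map_pow, map_X, map_C,
      Polynomial.map_neg, eval_add, eval_mul, eval_pow, eval_X, eval_C, eval_neg, map_neg]
    rw [hrc1, hrc0]
    linear_combination heq'
  obtain ⟨b, hb, hbt⟩ := exists_root_lift_of_monic A _ hA' rfl hmon y' hrooty
  -- assemble
  have hsub : (A.subtype).comp (Int.castRingHom A) = Int.castRingHom L := RingHom.ext_int _ _
  have hWL : W.map (Int.castRingHom L) = WA.map A.subtype := by
    rw [hWA, WeierstrassCurve.map_map, hsub]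
  have hcastL : ∀ n : ℤ, ((n : A) : L) = (n : L) := fun n => by simp
  have hEq : (W.map (Int.castRingHom L)).toAffine.Equation (a : L) (b : L) := by
    rw [equation_iff]
    simp only [map_a₁, map_a₂, map_a₃, map_a₄, map_a₆, eq_intCast]
    rw [hhA, IsRoot] at hb
    simp only [eval_add, eval_mul, eval_pow, eval_X, eval_C, hc1, hc0] at hb
    have hb' := congrArg (A.subtype) hb
    simp only [map_add, map_mul, map_pow, map_neg, map_zero, ValuationSubring.subtype_apply,
      hcastL] at hb'
    linear_combination hb'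
  have hΔL : (W.map (Int.castRingHom L)).Δ ≠ 0 := by
    rw [WeierstrassCurve.map_Δ, eq_intCast]
    exact Int.cast_ne_zero.mpr hΔ
  have hns : (W.map (Int.castRingHom L)).toAffine.Nonsingular (a : L) (b : L) :=
    (equation_iff_nonsingular_of_Δ_ne_zero hΔL).mp hEq
  refine ⟨a, b, hns, ?_, hat, hbt⟩
  refine (Fermat.Agent.DivPoly.CountFinal.nsmul_eq_zero_iff hns m hm1).mpr ?_
  have : ((W.map (Int.castRingHom L)).ΨSq (m : ℤ)) = (WA.ΨSq (m : ℤ)).map A.subtype := by
    rw [hWL, map_ΨSq]
  rw [this]
  have h3 := eval_map_apply' A.subtype (WA.ΨSq (m : ℤ)) a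
  rw [ha, map_zero] at h3
  exact h3

end Fermat.Agent.InertiaMult
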