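/-
S58, brick (d) (helper63): the residue field of a valuation subring of an algebraically closed
field is algebraically closed.
-/
import Mathlib

set_option autoImplicit false

open Polynomial

namespace Fermat.Agent.InertiaMult

variable {L : Type*} [Field L] [IsAlgClosed L] (A : ValuationSubring L)

/-- Every monic polynomial of positive degree over a valuation subring `A` of an algebraically
closed field has a root in `A`. -/
theorem exists_root_of_monic (g : (↥A)[X]) (hmon : g.Monic) (hdeg : g.natDegree ≠ 0) :
    ∃ a : A, g.IsRoot a := by
  have hdeg' : (g.map A.subtype).degree ≠ 0 := by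
    rw [degree_map_eq_of_injective A.subtype_injective]
    intro h
    exact hdeg (natDegree_eq_of_degree_eq_some h)
  obtain ⟨z, hz⟩ := IsAlgClosed.exists_root (g.map A.subtype) hdeg'
  have hint : IsIntegral A z := ⟨g, hmon, by
    rw [IsRoot, eval_map] at hz
    exact hz⟩
  obtain ⟨a, ha⟩ := (IsIntegrallyClosed.isIntegral_iff (R := A) (K := L)).mp hint
  refine ⟨a, ?_⟩
  have h1 : (g.map A.subtype).eval (A.subtype a) = A.subtype (g.eval a) := by
    rw [eval_map, eval₂_at_apply]
  have h2 : A.subtype a = z := ha
  rw [h2, hz] at h1
  exact A.subtype_injective (by rw [← h1, map_zero])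

/-- The residue field of a valuation subring of an algebraically closed field is algebraically
closed. -/
theorem isAlgClosed_residueField : IsAlgClosed (IsLocalRing.ResidueField A) := by
  apply IsAlgClosed.of_exists_root
  intro p hmon hirr
  have hlift : p ∈ Polynomial.lifts (IsLocalRing.residue A) :=
    (Polynomial.mem_lifts p).mpr
      (Polynomial.map_surjective (IsLocalRing.residue A) IsLocalRing.residue_surjective p)
  obtain ⟨g, hg, hgdeg, hgmon⟩ := Polynomial.lifts_and_degree_eq_and_monic hlift hmon
  have hnd : g.natDegree ≠ 0 := by
    have h1 : g.natDegree = p.natDegree := natDegree_eq_natDegree hgdeg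
    rw [h1]
    exact (Polynomial.natDegree_pos_iff_degree_pos.mpr (Polynomial.degree_pos_of_irreducible hirr)).ne'
  obtain ⟨a, ha⟩ := exists_root_of_monic A g hgmon hnd
  refine ⟨IsLocalRing.residue A a, ?_⟩
  rw [← hg, eval_map, eval₂_at_apply, ha, map_zero]

end Fermat.Agent.InertiaMult
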