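/-
S58, brick (d) (helper63): **inertia at a prime of multiplicative reduction.**

`W` an integral Weierstrass model with `Δ ≠ 0`, `q` a prime with `q ∣ Δ`, `q ∤ c₄`, `λ ≠ q` an odd
prime, `P` a valuation subring of `ℚ̄` over `q`.  There are at least `λⁿ` points of `W(ℚ̄)` killed
by `λⁿ` and fixed by every element of the inertia group `I_P`: the lifts
(`InertiaMult.Lift`, division polynomials) of the `≥ λⁿ` points killed by `λⁿ` of the smooth locus
of the nodal special fibre (`ES/Q58/NodeCount15`) — a torsion point of odd order prime to `q` is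
determined by its reduction (`ES/EC/CongE1_20`), and inertia acts trivially on the residue field.
With `ES/Q58/WeakLink25.weakLink` this gives `ECIface12.InertiaCong W λ q`.
-/
import Mathlib
import Fermat.Agent.InertiaMult.ResidueAlgClosed
import Fermat.Agent.InertiaMult.Lift
import Fermat.Agent.ES.Q58.WeakLink25
import Fermat.Agent.ES.Q58.NodeCount15
import Fermat.Agent.ES.Q58.CoordField13
import Fermat.Agent.ES.Q58.ECIface12

set_option autoImplicit false

open WeierstrassCurve WeierstrassCurve.Affine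

namespace Fermat.Agent.InertiaMult

local notation "Qb" => AlgebraicClosure ℚ
local notation "GQ" => (AlgebraicClosure ℚ ≃ₐ[ℚ] AlgebraicClosure ℚ)

open Fermat.Agent.S05.Inertia Fermat.Agent.S05.Kernel Fermat.Agent.ES.EC.CongE1_20
open Fermat.Agent.ES.EC Fermat.Agent.ES.Q58

/-- The generic fibre of an integral model has integral coefficients at every place. -/
theorem integralCoeffs (W : WeierstrassCurve ℤ) (P : ValuationSubring Qb) :
    IntegralCoeffs P.valuation ((W.map (Int.castRingHom ℚ))⁄Qb) := by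
  rw [TorsionLift20.baseChange_eq_map W]
  refine ⟨?_, ?_, ?_, ?_, ?_⟩
  · rw [WeierstrassCurve.map_a₁, eq_intCast]; exact valuation_intCast_le_one _
  · rw [WeierstrassCurve.map_a₂, eq_intCast]; exact valuation_intCast_le_one _
  · rw [WeierstrassCurve.map_a₃, eq_intCast]; exact valuation_intCast_le_one _
  · rw [WeierstrassCurve.map_a₄, eq_intCast]; exact valuation_intCast_le_one _
  · rw [WeierstrassCurve.map_a₆, eq_intCast]; exact valuation_intCast_le_one _

/-- A torsion point of order prime to `q` whose reduction at `P ∣ q` is not a `2`-torsion point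
is fixed by the inertia group at `P`. -/
theorem map_eq_self_of_mem_inertia (W : WeierstrassCurve ℤ) {P : ValuationSubring Qb} {q m : ℕ}
    (hq : q.Prime) (hP : P.LiesOverPrime q) (hqm : ¬ q ∣ m) {τ : GQ}
    (hτ : τ ∈ P.inertiaSubgroupIn ℚ) {x y : Qb}
    (h : ((W.map (Int.castRingHom ℚ))⁄Qb).Nonsingular x y)
    (hR : m • (Point.some x y h : ((W.map (Int.castRingHom ℚ))⁄Qb).Point) = 0)
    (hu : P.valuation (2 * y + ((W.map (Int.castRingHom ℚ))⁄Qb).a₁ * x
      + ((W.map (Int.castRingHom ℚ))⁄Qb).a₃) = 1) :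
    Point.map (W' := W.map (Int.castRingHom ℚ)) τ.toAlgHom (Point.some x y h)
      = Point.some x y h := by
  have hint := integralCoeffs W P
  have hvm : P.valuation ((m : ℕ) : Qb) = 1 := valuation_natCast_eq_one hq hP hqm
  have hvx : P.valuation x ≤ 1 := x_integral_of_nsmul_eq_zero hint h hvm hR
  have hvy : P.valuation y ≤ 1 := by
    by_contra hy
    exact absurd (vx_of_vy hint h.1 (not_le.mp hy)) (not_lt.mpr hvx)
  have h2 : ((W.map (Int.castRingHom ℚ))⁄Qb).Nonsingular (τ.toAlgHom x) (τ.toAlgHom y) :=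
    (WeierstrassCurve.Affine.baseChange_nonsingular (W.map (Int.castRingHom ℚ))
      (f := τ.toAlgHom) τ.toAlgHom.injective x y).mpr h
  have hmap : Point.map (W' := W.map (Int.castRingHom ℚ)) τ.toAlgHom (Point.some x y h)
      = Point.some (τ.toAlgHom x) (τ.toAlgHom y) h2 := rfl
  have hτR : m • Point.some (τ.toAlgHom x) (τ.toAlgHom y) h2 = 0 := by
    rw [← hmap, ← map_nsmul, hR, map_zero]
  rw [hmap]
  exact eq_of_congruent_of_nsmul_eq_zero hint h2 h (valuation_sub_lt_one_rat hτ hvx)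
    (valuation_sub_lt_one_rat hτ hvy) hu hvm hτR hR

/-- A point of odd order on a Weierstrass curve over a field is not fixed by negation. -/
theorem two_y_ne_zero_of_odd_nsmul {F : Type*} [Field F] [DecidableEq F] {V : Affine F}
    {x y : F} (h : V.Nonsingular x y) {m : ℕ} (hm : Odd m) (hR : m • Point.some x y h = 0) :
    2 * y + V.a₁ * x + V.a₃ ≠ 0 := by
  intro h0
  have hneg : V.negY x y = y := by rw [negY]; linear_combination -h0
  have h1 : -Point.some x y h = Point.some x y h := by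
    rw [Point.neg_some]
    simp only [Point.some.injEq, true_and]
    exact hneg
  have h2 : 2 • Point.some x y h = 0 := by
    rw [two_nsmul]
    nth_rewrite 2 [← h1]
    exact add_neg_cancel _
  have hd1 : addOrderOf (Point.some x y h) ∣ 2 := addOrderOf_dvd_of_nsmul_eq_zero h2
  have hd2 : addOrderOf (Point.some x y h) ∣ m := addOrderOf_dvd_of_nsmul_eq_zero hR
  have hcop : Nat.Coprime 2 m := Nat.coprime_two_left.mpr hm
  have h3 : addOrderOf (Point.some x y h) = 1 :=
    Nat.eq_one_of_dvd_coprimes hcop hd1 hd2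
  exact Point.some_ne_zero _ (AddMonoid.addOrderOf_eq_one_iff.mp h3)

/-- **Inertia-fixed torsion at a multiplicative prime.** -/
theorem exists_inertia_fixed_mult (W : WeierstrassCurve ℤ) (hΔ : W.Δ ≠ 0) {q lam : ℕ} (hq : q.Prime)
    (hlam : lam.Prime) (hlam2 : lam ≠ 2) (hne : lam ≠ q) (hqΔ : (q : ℤ) ∣ W.Δ)
    (hqc : ¬ (q : ℤ) ∣ W.c₄) (n : ℕ) {P : ValuationSubring Qb} (hP : P.LiesOverPrime q) :
    ∃ S : Finset ((W.map (Int.castRingHom ℚ))⁄Qb).Point, lam ^ n ≤ S.card ∧
      ∀ R ∈ S, lam ^ n • R = 0 ∧ ∀ τ ∈ P.inertiaSubgroupIn ℚ,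
        Point.map (W' := W.map (Int.castRingHom ℚ)) τ.toAlgHom R = R := by
  classical
  have : Fact q.Prime := ⟨hq⟩
  let _ : Algebra (ZMod q) (IsLocalRing.ResidueField P) :=
    (LiftTorsion29.primeEmb P hq hP).toAlgebra
  have : IsAlgClosed (IsLocalRing.ResidueField P) := isAlgClosed_residueField P
  obtain ⟨Sbar, hcard, hSbar⟩ :=
    NodeCount15.exists_torsion_node W hqΔ hqc hlam hne n (IsLocalRing.ResidueField P)
  -- the reduced curve
  have hVk : ((W.reductionMod q)⁄(IsLocalRing.ResidueField P)) =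
      (W.map (Int.castRingHom (IsLocalRing.ResidueField P))).toAffine := by
    change ((W.map (Int.castRingHom (ZMod q))).map
      (algebraMap (ZMod q) (IsLocalRing.ResidueField P))) = _
    rw [WeierstrassCurve.map_map]
    congr 1
    exact RingHom.ext_int _ _
  have hVL := TorsionLift20.baseChange_eq_map W
  have hm1 : 1 ≤ lam ^ n := Nat.one_le_pow _ _ hlam.pos
  have hqm : ¬ q ∣ lam ^ n := fun hd =>
    hne ((Nat.prime_dvd_prime_iff_eq hq hlam).mp (hq.dvd_of_dvd_pow hd)).symm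
  have hodd : Odd (lam ^ n) := (hlam.odd_of_ne_two hlam2).pow
  -- lift of a single point
  have key : ∀ Rbar ∈ Sbar, ∃ R : ((W.map (Int.castRingHom ℚ))⁄Qb).Point, lam ^ n • R = 0 ∧
      (∀ τ ∈ P.inertiaSubgroupIn ℚ,
        Point.map (W' := W.map (Int.castRingHom ℚ)) τ.toAlgHom R = R) ∧
      ((Rbar = 0 ∧ R = 0) ∨
        ∃ (x y : Qb) (h : ((W.map (Int.castRingHom ℚ))⁄Qb).Nonsingular x y)
          (x' y' : IsLocalRing.ResidueField P)
          (h' : ((W.reductionMod q)⁄(IsLocalRing.ResidueField P)).Nonsingular x' y')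
          (hx : x ∈ P) (hy : y ∈ P),
          R = Point.some x y h ∧ Rbar = Point.some x' y' h' ∧
          IsLocalRing.residue P ⟨x, hx⟩ = x' ∧ IsLocalRing.residue P ⟨y, hy⟩ = y') := by
    intro Rbar hRbar
    have hk := hSbar Rbar hRbar
    rcases Rbar with _ | ⟨x', y', h'⟩
    · exact ⟨0, nsmul_zero _, fun τ _ => map_zero _, Or.inl ⟨rfl, rfl⟩⟩
    · obtain ⟨a, b, h, hR, hat, hbt⟩ :=
        exists_torsion_lift_residue P W hΔ hq hP hm1 hqm hVk hVL h' hk
      refine ⟨Point.some (a : Qb) (b : Qb) h, hR, ?_,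
        Or.inr ⟨a, b, h, x', y', h', a.2, b.2, rfl, rfl, hat, hbt⟩⟩
      intro τ hτ
      refine map_eq_self_of_mem_inertia W hq hP hqm hτ h hR ?_
      -- the reduction is not a `2`-torsion point
      have hne0 := two_y_ne_zero_of_odd_nsmul h' hodd hk
      set u : P := 2 * b + ((W.a₁ : ℤ) : P) * a + ((W.a₃ : ℤ) : P) with hu
      have hres : IsLocalRing.residue P u = 2 * y' +
          ((W.reductionMod q)⁄(IsLocalRing.ResidueField P)).a₁ * x' +
          ((W.reductionMod q)⁄(IsLocalRing.ResidueField P)).a₃ := by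
        rw [hVk, hu]
        simp only [map_add, map_mul, map_ofNat, map_intCast, hat, hbt, WeierstrassCurve.map_a₁,
          WeierstrassCurve.map_a₃, eq_intCast]
      have hunit : IsUnit u := by
        rw [← IsLocalRing.residue_ne_zero_iff_isUnit, hres]
        exact hne0
      have hval := (ValuationSubring.valuation_eq_one_iff P u).mp hunit
      have hcoe : (u : Qb) = 2 * (b : Qb) + ((W.map (Int.castRingHom ℚ))⁄Qb).a₁ * (a : Qb)
          + ((W.map (Int.castRingHom ℚ))⁄Qb).a₃ := by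
        have h2 : ((2 : P) : Qb) = 2 := rfl
        rw [hVL, hu]
        simp only [WeierstrassCurve.map_a₁, WeierstrassCurve.map_a₃, eq_intCast]
        push_cast
        rw [h2]
      rw [← hcoe]
      exact hval
  choose! lift hlift using key
  -- the lift is injective on `Sbar`
  have hinj : Set.InjOn lift Sbar := by
    intro R₁ hR₁ R₂ hR₂ h12
    obtain ⟨-, -, hc₁⟩ := hlift R₁ hR₁
    obtain ⟨-, -, hc₂⟩ := hlift R₂ hR₂
    rcases hc₁ with ⟨hb₁, hl₁⟩ | ⟨x₁, y₁, h₁, x₁', y₁', h₁', hx₁, hy₁, hl₁, hb₁, hxr₁, hyr₁⟩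
    · rcases hc₂ with ⟨hb₂, -⟩ | ⟨x₂, y₂, h₂, x₂', y₂', h₂', hx₂, hy₂, hl₂, -, -, -⟩
      · rw [hb₁, hb₂]
      · rw [h12, hl₂] at hl₁
        exact absurd hl₁ (Point.some_ne_zero _)
    · rcases hc₂ with ⟨-, hl₂⟩ | ⟨x₂, y₂, h₂, x₂', y₂', h₂', hx₂, hy₂, hl₂, hb₂, hxr₂, hyr₂⟩
      · rw [← h12, hl₁] at hl₂
        exact absurd hl₂ (Point.some_ne_zero _)
      · rw [hl₁, hl₂, Point.some.injEq] at h12
        obtain ⟨hxx, hyy⟩ := h12
        subst hxx hyy
        rw [hb₁, hb₂, Point.some.injEq]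
        exact ⟨hxr₁.symm.trans hxr₂, hyr₁.symm.trans hyr₂⟩
  refine ⟨Sbar.image lift, ?_, ?_⟩
  · rw [Finset.card_image_of_injOn hinj]; exact hcard
  · intro R hR
    obtain ⟨Rbar, hRbar, rfl⟩ := Finset.mem_image.mp hR
    exact ⟨(hlift Rbar hRbar).1, (hlift Rbar hRbar).2.1⟩

/-- **(E-ii) at a prime of multiplicative reduction.** -/
theorem inertiaCong_of_mult (W : WeierstrassCurve ℤ) (hΔ : W.Δ ≠ 0) {q lam : ℕ} (hq : q.Prime)
    (hlam : lam.Prime) (hlam2 : lam ≠ 2) (hne : lam ≠ q) (hqΔ : (q : ℤ) ∣ W.Δ)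
    (hqc : ¬ (q : ℤ) ∣ W.c₄) : ECIface12.InertiaCong W lam q := by
  classical
  refine ⟨{lam}, fun n => ?_⟩
  have hodd : Odd (lam ^ n) := (hlam.odd_of_ne_two hlam2).pow
  obtain ⟨K, hK, hKprop⟩ := CoordField13.coordField (W.map (Int.castRingHom ℚ)) hodd
  refine ⟨K, hK, ?_⟩
  intro P hP τ hτ ℓ A φ hℓ hℓT hgood hA hφ i hi
  have hℓlam : ℓ ≠ lam := by simpa using hℓT
  have hτi : τ ^ i ∈ P.inertiaSubgroupIn ℚ := Subgroup.pow_mem _ hτ i
  obtain ⟨S, hScard, hS⟩ := exists_inertia_fixed_mult W hΔ hq hlam hlam2 hne hqΔ hqc n hP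
  refine WeakLink25.weakLink W hℓ hlam hlam2 hℓlam hgood hA hφ S
    (fun R hR => ⟨(hS R hR).1, ?_⟩) hScard
  rw [hKprop R (hS R hR).1 φ (τ ^ i) hi]
  exact (hS R hR).2 (τ ^ i) hτi

end Fermat.Agent.InertiaMult
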