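/-
S58, (E-ii) at a prime of good reduction (helper63; hedge for brick (c)).

`W` an integral Weierstrass model, `q` a prime with `q ∤ Δ`, `λ ≠ q` an odd prime, `P` a valuation
subring of `ℚ̄` over `q`: every point of `W(ℚ̄)` killed by `λⁿ` is fixed by the inertia group
`I_P`.  (The reduction of such a point over the residue field of `P` is a nonsingular point killed
by `λⁿ` — division polynomials commute with base change — hence not a `2`-torsion point, and a
torsion point of order prime to `q` is determined by its reduction, `ES/EC/CongE1_20`.)  Hence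
`ECIface12.InertiaCong W λ q`, and, together with `InertiaMult.Main`, the field
`ECIface12.ECFacts.inertia` for every semistable integral model.
-/
import Mathlib
import Fermat.Agent.InertiaMult.Main

set_option autoImplicit false

open Polynomial WeierstrassCurve WeierstrassCurve.Affine

namespace Fermat.Agent.InertiaMult

local notation "Qb" => AlgebraicClosure ℚ
local notation "GQ" => (AlgebraicClosure ℚ ≃ₐ[ℚ] AlgebraicClosure ℚ)

open Fermat.Agent.S05.Inertia Fermat.Agent.S05.Kernel Fermat.Agent.ES.EC.CongE1_20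
open Fermat.Agent.ES.EC Fermat.Agent.ES.Q58 Fermat.Agent.ES.EC.LiftTorsion29

section Reduce

variable {L : Type*} [Field L] [DecidableEq L] (A : ValuationSubring L)

omit [DecidableEq L] in
/-- The reduction of an integral point of the generic fibre lies on the reduced curve. -/
theorem equation_residue (W : WeierstrassCurve ℤ) (a b : A)
    (h : (W.map (Int.castRingHom L)).toAffine.Equation (a : L) (b : L)) :
    (W.map (Int.castRingHom (IsLocalRing.ResidueField A))).toAffine.Equation
      (IsLocalRing.residue A a) (IsLocalRing.residue A b) := by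
  rw [equation_iff] at h ⊢
  simp only [map_a₁, map_a₂, map_a₃, map_a₄, map_a₆, eq_intCast] at h ⊢
  have hA : b ^ 2 + (W.a₁ : A) * a * b + (W.a₃ : A) * b =
      a ^ 3 + (W.a₂ : A) * a ^ 2 + (W.a₄ : A) * a + (W.a₆ : A) := by
    apply A.subtype_injective
    simp only [map_add, map_mul, map_pow, map_intCast, ValuationSubring.subtype_apply]
    exact h
  have := congrArg (IsLocalRing.residue A) hA
  simpa only [map_add, map_mul, map_pow, map_intCast] using this

/-- Division polynomials commute with reduction: the reduction of an integral point killed by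
`m` is killed by `m` (if it is a nonsingular point of the reduced curve). -/
theorem reduce_torsion_residue [DecidableEq (IsLocalRing.ResidueField A)]
    (W : WeierstrassCurve ℤ) {m : ℕ} (hm1 : 1 ≤ m)
    {Vk : Affine (IsLocalRing.ResidueField A)}
    (hVk : Vk = (W.map (Int.castRingHom (IsLocalRing.ResidueField A))).toAffine)
    {VL : Affine L} (hVL : VL = (W.map (Int.castRingHom L)).toAffine)
    (a b : A) (h : VL.Nonsingular (a : L) (b : L)) (hR : m • Point.some (a : L) (b : L) h = 0)
    (h' : Vk.Nonsingular (IsLocalRing.residue A a) (IsLocalRing.residue A b)) :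
    m • Point.some _ _ h' = 0 := by
  subst hVk hVL
  have hΨ : ((W.map (Int.castRingHom L)).ΨSq (m : ℤ)).eval (a : L) = 0 :=
    (Fermat.Agent.DivPoly.CountFinal.nsmul_eq_zero_iff h m hm1).mp hR
  refine (Fermat.Agent.DivPoly.CountFinal.nsmul_eq_zero_iff h' m hm1).mpr ?_
  set WA : WeierstrassCurve A := W.map (Int.castRingHom A) with hWA
  have hsub : (A.subtype).comp (Int.castRingHom A) = Int.castRingHom L := RingHom.ext_int _ _
  have hcomp : (IsLocalRing.residue A).comp (Int.castRingHom A) =
      Int.castRingHom (IsLocalRing.ResidueField A) := RingHom.ext_int _ _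
  have h1 : (W.map (Int.castRingHom L)).ΨSq (m : ℤ) = (WA.ΨSq (m : ℤ)).map A.subtype := by
    rw [hWA, map_ΨSq, map_ΨSq, Polynomial.map_map, hsub]
  have h2 : (W.map (Int.castRingHom (IsLocalRing.ResidueField A))).ΨSq (m : ℤ) =
      (WA.ΨSq (m : ℤ)).map (IsLocalRing.residue A) := by
    rw [hWA, map_ΨSq, map_ΨSq, Polynomial.map_map, hcomp]
  have h3 : (WA.ΨSq (m : ℤ)).eval a = 0 := by
    apply A.subtype_injective
    have := eval_map_apply' A.subtype (WA.ΨSq (m : ℤ)) a
    rw [map_zero, ← this, ← h1]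
    exact hΨ
  rw [h2, eval_map_apply', h3, map_zero]

end Reduce

/-- **Inertia at a good prime acts trivially on the torsion of order prime to it** (odd order). -/
theorem map_eq_self_of_good (W : WeierstrassCurve ℤ) {q m : ℕ} (hq : q.Prime) (hm : Odd m)
    (hqm : ¬ q ∣ m) (hgood : ¬ (q : ℤ) ∣ W.Δ) {P : ValuationSubring Qb} (hP : P.LiesOverPrime q)
    {τ : GQ} (hτ : τ ∈ P.inertiaSubgroupIn ℚ)
    (R : ((W.map (Int.castRingHom ℚ))⁄Qb).Point) (hR : m • R = 0) :
    Point.map (W' := W.map (Int.castRingHom ℚ)) τ.toAlgHom R = R := by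
  classical
  rcases R with _ | ⟨x, y, h⟩
  · exact map_zero _
  have hint := integralCoeffs W P
  have hvm : P.valuation ((m : ℕ) : Qb) = 1 := valuation_natCast_eq_one hq hP hqm
  have hvx : P.valuation x ≤ 1 := x_integral_of_nsmul_eq_zero hint h hvm hR
  have hvy : P.valuation y ≤ 1 := by
    by_contra hy
    exact absurd (vx_of_vy hint h.1 (not_le.mp hy)) (not_lt.mpr hvx)
  have hxP : x ∈ P := (P.valuation_le_one_iff x).mp hvx
  have hyP : y ∈ P := (P.valuation_le_one_iff y).mp hvy
  refine map_eq_self_of_mem_inertia W hq hP hqm hτ h hR ?_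
  have hVL := TorsionLift20.baseChange_eq_map W
  set a : P := ⟨x, hxP⟩ with ha
  set b : P := ⟨y, hyP⟩ with hb
  -- the reduced point
  have hEqL : (W.map (Int.castRingHom Qb)).toAffine.Equation (a : Qb) (b : Qb) := by
    have := h.1
    rw [hVL] at this
    exact this
  have hEqk := equation_residue P W a b hEqL
  have hΔu : IsUnit ((W.Δ : ℤ) : P) := isUnit_intCast_of_not_dvd P hq hP hgood
  have hΔk : (W.map (Int.castRingHom (IsLocalRing.ResidueField P))).Δ ≠ 0 := by
    rw [WeierstrassCurve.map_Δ, eq_intCast, ← map_intCast (IsLocalRing.residue P)]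
    exact (IsLocalRing.residue_ne_zero_iff_isUnit _).mpr hΔu
  have hnsk : (W.map (Int.castRingHom (IsLocalRing.ResidueField P))).toAffine.Nonsingular
      (IsLocalRing.residue P a) (IsLocalRing.residue P b) :=
    (equation_iff_nonsingular_of_Δ_ne_zero hΔk).mp hEqk
  have hkill := reduce_torsion_residue P W hm.pos rfl hVL a b h hR hnsk
  have hne0 := two_y_ne_zero_of_odd_nsmul hnsk hm hkill
  set u : P := 2 * b + ((W.a₁ : ℤ) : P) * a + ((W.a₃ : ℤ) : P) with hu
  have hres : IsLocalRing.residue P u = 2 * IsLocalRing.residue P b +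
      (W.map (Int.castRingHom (IsLocalRing.ResidueField P))).toAffine.a₁ * IsLocalRing.residue P a +
      (W.map (Int.castRingHom (IsLocalRing.ResidueField P))).toAffine.a₃ := by
    rw [hu]
    simp only [map_add, map_mul, map_ofNat, map_intCast, WeierstrassCurve.map_a₁,
      WeierstrassCurve.map_a₃, eq_intCast]
  have hunit : IsUnit u := by
    rw [← IsLocalRing.residue_ne_zero_iff_isUnit, hres]
    exact hne0
  have hval := (ValuationSubring.valuation_eq_one_iff P u).mp hunit
  have hcoe : (u : Qb) = 2 * y + ((W.map (Int.castRingHom ℚ))⁄Qb).a₁ * x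
      + ((W.map (Int.castRingHom ℚ))⁄Qb).a₃ := by
    have h2 : ((2 : P) : Qb) = 2 := rfl
    rw [hVL, hu]
    simp only [WeierstrassCurve.map_a₁, WeierstrassCurve.map_a₃, eq_intCast]
    push_cast
    rw [h2]
  rw [← hcoe]
  exact hval

/-- **(E-ii) at a prime of good reduction.** -/
theorem inertiaCong_of_good (W : WeierstrassCurve ℤ) (hΔ : W.Δ ≠ 0) {q lam : ℕ} (hq : q.Prime)
    (hlam : lam.Prime) (hlam2 : lam ≠ 2) (hne : lam ≠ q) (hgood : ¬ (q : ℤ) ∣ W.Δ) :
    ECIface12.InertiaCong W lam q := by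
  classical
  refine ⟨{lam}, fun n => ?_⟩
  have hodd : Odd (lam ^ n) := (hlam.odd_of_ne_two hlam2).pow
  have hqm : ¬ q ∣ lam ^ n := fun hd =>
    hne ((Nat.prime_dvd_prime_iff_eq hq hlam).mp (hq.dvd_of_dvd_pow hd)).symm
  obtain ⟨K, hK, hKprop⟩ := CoordField13.coordField (W.map (Int.castRingHom ℚ)) hodd
  refine ⟨K, hK, ?_⟩
  intro P hP τ hτ ℓ A φ hℓ hℓT hgoodℓ hA hφ i hi
  have hℓlam : ℓ ≠ lam := by simpa using hℓT
  have hτi : τ ^ i ∈ P.inertiaSubgroupIn ℚ := Subgroup.pow_mem _ hτ i
  -- the set of all points killed by `lam ^ n`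
  have hEΔ : (W.map (Int.castRingHom ℚ)).Δ ≠ 0 := by
    rw [WeierstrassCurve.map_Δ, eq_intCast]
    exact Int.cast_ne_zero.mpr hΔ
  have hfin : Finite (Submodule.torsionBy ℤ ((W.map (Int.castRingHom ℚ))⁄Qb).Point
      ((lam ^ n : ℕ) : ℤ)) := CoordField13.finite_torsionBy_odd hodd
  have hcard := CoordField13.card_torsionBy_pow hEΔ hlam hlam2 n
  have := Fintype.ofFinite (Submodule.torsionBy ℤ ((W.map (Int.castRingHom ℚ))⁄Qb).Point
      ((lam ^ n : ℕ) : ℤ))
  set S : Finset ((W.map (Int.castRingHom ℚ))⁄Qb).Point :=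
    Finset.univ.image (fun R : Submodule.torsionBy ℤ ((W.map (Int.castRingHom ℚ))⁄Qb).Point
      ((lam ^ n : ℕ) : ℤ) => (R : ((W.map (Int.castRingHom ℚ))⁄Qb).Point)) with hS
  have hScard : lam ^ n ≤ S.card := by
    rw [hS, Finset.card_image_of_injective _ Subtype.val_injective, Finset.card_univ,
      ← Nat.card_eq_fintype_card, hcard]
    exact Nat.pow_le_pow_right hlam.pos (by omega)
  have hSmem : ∀ R ∈ S, lam ^ n • R = 0 := by
    intro R hR
    obtain ⟨R', -, rfl⟩ := Finset.mem_image.mp hR
    have := R'.2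
    rwa [Submodule.mem_torsionBy_iff, natCast_zsmul] at this
  refine WeakLink25.weakLink W hℓ hlam hlam2 hℓlam hgoodℓ hA hφ S
    (fun R hR => ⟨hSmem R hR, ?_⟩) hScard
  rw [hKprop R (hSmem R hR) φ (τ ^ i) hi]
  exact map_eq_self_of_good W hq hodd hqm hgood hP hτi R (hSmem R hR)

/-- **The field `ECFacts.inertia`** for a semistable integral model with `Δ ≠ 0`. -/
theorem ecFacts_inertia (W : WeierstrassCurve ℤ) (hΔ : W.Δ ≠ 0) (hss : W.IsSemistableModel) :
    ∀ q : ℕ, q.Prime → ∃ T : Finset ℕ, ∀ lam : ℕ, lam.Prime → lam ∉ T →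
      ECIface12.InertiaCong W lam q := by
  intro q hq
  refine ⟨{2, q}, fun lam hlam hlamT => ?_⟩
  have hlam2 : lam ≠ 2 := fun h => hlamT (by simp [h])
  have hne : lam ≠ q := fun h => hlamT (by simp [h])
  by_cases hqΔ : (q : ℤ) ∣ W.Δ
  · exact inertiaCong_of_mult W hΔ hq hlam hlam2 hne hqΔ (hss q hq hqΔ)
  · exact inertiaCong_of_good W hΔ hq hlam hlam2 hne hqΔ

end Fermat.Agent.InertiaMult
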