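/-
S58, hedge for brick (b) (helper63): **reduction of torsion points is additive.**

`L` a field, `A` a valuation subring of `L` with residue field `κ`, `W` an integral Weierstrass
curve, `V_L = W_L`, `V_κ = W_κ`.  `RedTo A R R̄` says that the point `R` of `V_L` is `0` and
`R̄ = 0`, or `R = (a, b)` with `a, b ∈ A` and `R̄ = (ā, b̄)`.  On the points killed by an odd `m`
which is a unit of `A`, `RedTo` is (the graph of) an additive map: chord/tangent formulas reduce
because two `m`-torsion points with the same reduction are equal (`ES/EC/CongE1_20`).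
-/
import Mathlib
import Fermat.Agent.InertiaMult.Good

set_option autoImplicit false
set_option linter.unusedSectionVars false

open Polynomial WeierstrassCurve WeierstrassCurve.Affine

namespace Fermat.Agent.InertiaMult

open Fermat.Agent.S05.Inertia Fermat.Agent.S05.Kernel Fermat.Agent.ES.EC.CongE1_20

section RedTo

variable {L : Type*} [Field L] [DecidableEq L] (A : ValuationSubring L)
  [DecidableEq (IsLocalRing.ResidueField A)]

/-- `R` reduces to `Rbar`. -/
def RedTo {VL : Affine L} {Vk : Affine (IsLocalRing.ResidueField A)} (R : VL.Point)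
    (Rbar : Vk.Point) : Prop :=
  (R = 0 ∧ Rbar = 0) ∨
    ∃ (a b : A) (h : VL.Nonsingular (a : L) (b : L))
      (h' : Vk.Nonsingular (IsLocalRing.residue A a) (IsLocalRing.residue A b)),
      R = Point.some _ _ h ∧ Rbar = Point.some _ _ h'

variable {A}
variable {VL : Affine L} {Vk : Affine (IsLocalRing.ResidueField A)}

theorem redTo_zero : RedTo A (0 : VL.Point) (0 : Vk.Point) := Or.inl ⟨rfl, rfl⟩

theorem redTo_some (a b : A) (h : VL.Nonsingular (a : L) (b : L))
    (h' : Vk.Nonsingular (IsLocalRing.residue A a) (IsLocalRing.residue A b)) :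
    RedTo A (Point.some _ _ h) (Point.some _ _ h') :=
  Or.inr ⟨a, b, h, h', rfl, rfl⟩

theorem RedTo.unique {R : VL.Point} {R₁ R₂ : Vk.Point} (h₁ : RedTo A R R₁) (h₂ : RedTo A R R₂) :
    R₁ = R₂ := by
  rcases h₁ with ⟨hR, hR₁⟩ | ⟨a, b, h, h', hR, hR₁⟩
  · rcases h₂ with ⟨-, hR₂⟩ | ⟨a', b', h₂, h₂', hR', -⟩
    · rw [hR₁, hR₂]
    · rw [hR] at hR'
      exact absurd hR'.symm (Point.some_ne_zero _)
  · rcases h₂ with ⟨hR', -⟩ | ⟨a', b', h₂, h₂', hR', hR₂⟩
    · rw [hR] at hR'
      exact absurd hR' (Point.some_ne_zero _)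
    · rw [hR, Point.some.injEq] at hR'
      obtain ⟨hx, hy⟩ := hR'
      have ha : a = a' := Subtype.ext hx
      have hb : b = b' := Subtype.ext hy
      subst ha hb
      rw [hR₁, hR₂]

theorem RedTo.eq_zero {R : VL.Point} (h : RedTo A R (0 : Vk.Point)) : R = 0 := by
  rcases h with ⟨hR, -⟩ | ⟨a, b, h, h', -, h0⟩
  · exact hR
  · exact absurd h0.symm (Point.some_ne_zero _)

theorem res_eq_iff (a b : A) :
    IsLocalRing.residue A a = IsLocalRing.residue A b ↔ A.valuation ((a : L) - (b : L)) < 1 := by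
  rw [← sub_eq_zero, ← map_sub, IsLocalRing.residue_eq_zero_iff,
    ValuationSubring.valuation_lt_one_iff]
  rfl

theorem isUnit_iff_res_ne_zero (a : A) : IsUnit a ↔ IsLocalRing.residue A a ≠ 0 :=
  (IsLocalRing.residue_ne_zero_iff_isUnit a).symm

end RedTo

section Add

variable {L : Type*} [Field L] [DecidableEq L] {A : ValuationSubring L}
  [DecidableEq (IsLocalRing.ResidueField A)] (W : WeierstrassCurve ℤ)

/-- Integrality of the coefficients of the generic fibre (any valued field). -/
theorem integralCoeffs_map :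
    IntegralCoeffs A.valuation (W.map (Int.castRingHom L)).toAffine := by
  refine ⟨?_, ?_, ?_, ?_, ?_⟩
  · rw [WeierstrassCurve.map_a₁, eq_intCast]; exact valuation_intCast_le_one _
  · rw [WeierstrassCurve.map_a₂, eq_intCast]; exact valuation_intCast_le_one _
  · rw [WeierstrassCurve.map_a₃, eq_intCast]; exact valuation_intCast_le_one _
  · rw [WeierstrassCurve.map_a₄, eq_intCast]; exact valuation_intCast_le_one _
  · rw [WeierstrassCurve.map_a₆, eq_intCast]; exact valuation_intCast_le_one _

/-- the `y`-coordinate of the negative, over `A`. -/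
def negYA (a b : A) : A := -b - ((W.a₁ : ℤ) : A) * a - ((W.a₃ : ℤ) : A)

theorem coe_negYA (a b : A) :
    ((negYA W a b : A) : L) = (W.map (Int.castRingHom L)).toAffine.negY (a : L) (b : L) := by
  simp only [negYA, negY, WeierstrassCurve.map_a₁, WeierstrassCurve.map_a₃, eq_intCast]
  push_cast
  rfl

theorem res_negYA (a b : A) :
    IsLocalRing.residue A (negYA W a b) =
      (W.map (Int.castRingHom (IsLocalRing.ResidueField A))).toAffine.negY
        (IsLocalRing.residue A a) (IsLocalRing.residue A b) := by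
  simp only [negYA, negY, WeierstrassCurve.map_a₁, WeierstrassCurve.map_a₃, eq_intCast,
    map_sub, map_neg, map_mul, map_intCast]

/-- the `x`-coordinate of the sum, over `A`. -/
def addXA (a₁ a₂ l : A) : A := l ^ 2 + ((W.a₁ : ℤ) : A) * l - ((W.a₂ : ℤ) : A) - a₁ - a₂

/-- the `y`-coordinate of the sum, over `A`. -/
def addYA (a₁ a₂ b₁ l : A) : A := negYA W (addXA W a₁ a₂ l) (l * (addXA W a₁ a₂ l - a₁) + b₁)

theorem coe_addXA (a₁ a₂ l : A) :
    ((addXA W a₁ a₂ l : A) : L) =
      (W.map (Int.castRingHom L)).toAffine.addX (a₁ : L) (a₂ : L) (l : L) := by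
  simp only [addXA, addX, WeierstrassCurve.map_a₁, WeierstrassCurve.map_a₂, eq_intCast]
  push_cast
  rfl

theorem res_addXA (a₁ a₂ l : A) :
    IsLocalRing.residue A (addXA W a₁ a₂ l) =
      (W.map (Int.castRingHom (IsLocalRing.ResidueField A))).toAffine.addX
        (IsLocalRing.residue A a₁) (IsLocalRing.residue A a₂) (IsLocalRing.residue A l) := by
  simp only [addXA, addX, WeierstrassCurve.map_a₁, WeierstrassCurve.map_a₂, eq_intCast,
    map_sub, map_add, map_mul, map_pow, map_intCast]

theorem coe_addYA (a₁ a₂ b₁ l : A) :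
    ((addYA W a₁ a₂ b₁ l : A) : L) =
      (W.map (Int.castRingHom L)).toAffine.addY (a₁ : L) (a₂ : L) (b₁ : L) (l : L) := by
  rw [addYA, coe_negYA, addY, negAddY, ← coe_addXA]
  push_cast
  rfl

theorem res_addYA (a₁ a₂ b₁ l : A) :
    IsLocalRing.residue A (addYA W a₁ a₂ b₁ l) =
      (W.map (Int.castRingHom (IsLocalRing.ResidueField A))).toAffine.addY
        (IsLocalRing.residue A a₁) (IsLocalRing.residue A a₂) (IsLocalRing.residue A b₁)
        (IsLocalRing.residue A l) := by
  rw [addYA, res_negYA, addY, negAddY, ← res_addXA]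
  simp only [map_add, map_mul, map_sub]

/-- If the slope is integral and reduces to the slope of the reductions, the sum reduces to the
sum. -/
theorem redTo_add_of_slope {a₁ b₁ a₂ b₂ l : A}
    (h₁ : (W.map (Int.castRingHom L)).toAffine.Nonsingular (a₁ : L) (b₁ : L))
    (h₂ : (W.map (Int.castRingHom L)).toAffine.Nonsingular (a₂ : L) (b₂ : L))
    (h₁' : (W.map (Int.castRingHom (IsLocalRing.ResidueField A))).toAffine.Nonsingular
      (IsLocalRing.residue A a₁) (IsLocalRing.residue A b₁))
    (h₂' : (W.map (Int.castRingHom (IsLocalRing.ResidueField A))).toAffine.Nonsingular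
      (IsLocalRing.residue A a₂) (IsLocalRing.residue A b₂))
    (hxyL : ¬((a₁ : L) = (a₂ : L) ∧
      (b₁ : L) = (W.map (Int.castRingHom L)).toAffine.negY (a₂ : L) (b₂ : L)))
    (hxyk : ¬(IsLocalRing.residue A a₁ = IsLocalRing.residue A a₂ ∧
      IsLocalRing.residue A b₁ =
        (W.map (Int.castRingHom (IsLocalRing.ResidueField A))).toAffine.negY
          (IsLocalRing.residue A a₂) (IsLocalRing.residue A b₂)))
    (hsL : (l : L) = (W.map (Int.castRingHom L)).toAffine.slope (a₁ : L) (a₂ : L) (b₁ : L) (b₂ : L))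
    (hsk : IsLocalRing.residue A l =
      (W.map (Int.castRingHom (IsLocalRing.ResidueField A))).toAffine.slope
        (IsLocalRing.residue A a₁) (IsLocalRing.residue A a₂) (IsLocalRing.residue A b₁)
        (IsLocalRing.residue A b₂)) :
    RedTo A (Point.some _ _ h₁ + Point.some _ _ h₂) (Point.some _ _ h₁' + Point.some _ _ h₂') := by
  rw [Point.add_some hxyL, Point.add_some hxyk]
  have hX := coe_addXA (L := L) W a₁ a₂ l
  have hY := coe_addYA (L := L) W a₁ a₂ b₁ l
  have hX' := res_addXA (A := A) W a₁ a₂ l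
  have hY' := res_addYA (A := A) W a₁ a₂ b₁ l
  rw [hsL] at hX hY
  rw [hsk] at hX' hY'
  have hns : (W.map (Int.castRingHom L)).toAffine.Nonsingular
      ((addXA W a₁ a₂ l : A) : L) ((addYA W a₁ a₂ b₁ l : A) : L) := by
    rw [hX, hY]; exact nonsingular_add h₁ h₂ hxyL
  have hns' : (W.map (Int.castRingHom (IsLocalRing.ResidueField A))).toAffine.Nonsingular
      (IsLocalRing.residue A (addXA W a₁ a₂ l)) (IsLocalRing.residue A (addYA W a₁ a₂ b₁ l)) := by
    rw [hX', hY']; exact nonsingular_add h₁' h₂' hxyk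
  refine Or.inr ⟨addXA W a₁ a₂ l, addYA W a₁ a₂ b₁ l, hns, hns', ?_, ?_⟩
  · simp only [Point.some.injEq]; exact ⟨hX.symm, hY.symm⟩
  · simp only [Point.some.injEq]; exact ⟨hX'.symm, hY'.symm⟩

/-- The reduction of an `m`-torsion point (`m` odd) is not a `2`-torsion point. -/
theorem val_two_y_eq_one {m : ℕ} (hm : Odd m) {a b : A}
    (h : (W.map (Int.castRingHom L)).toAffine.Nonsingular (a : L) (b : L))
    (h' : (W.map (Int.castRingHom (IsLocalRing.ResidueField A))).toAffine.Nonsingular
      (IsLocalRing.residue A a) (IsLocalRing.residue A b))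
    (hR : m • Point.some _ _ h = 0) :
    IsUnit (b - negYA W a b) ∧
    A.valuation (2 * (b : L) + (W.map (Int.castRingHom L)).toAffine.a₁ * (a : L)
      + (W.map (Int.castRingHom L)).toAffine.a₃) = 1 := by
  have hkill := reduce_torsion_residue A W hm.pos rfl rfl a b h hR h'
  have hne0 := two_y_ne_zero_of_odd_nsmul h' hm hkill
  have hunit : IsUnit (b - negYA W a b) := by
    rw [isUnit_iff_res_ne_zero, map_sub, res_negYA, negY]
    intro h0
    apply hne0
    linear_combination h0
  refine ⟨hunit, ?_⟩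
  have hval := (ValuationSubring.valuation_eq_one_iff A _).mp hunit
  have hcoe : ((b - negYA W a b : A) : L) = 2 * (b : L) +
      (W.map (Int.castRingHom L)).toAffine.a₁ * (a : L) +
      (W.map (Int.castRingHom L)).toAffine.a₃ := by
    push_cast
    rw [coe_negYA, negY]
    ring
  rw [← hcoe]
  exact hval

/-- **Additivity of the reduction on odd torsion prime to the residue characteristic.** -/
theorem redTo_add {m : ℕ} (hm : Odd m) (hvm : A.valuation ((m : ℕ) : L) = 1)
    {VL : Affine L} (hVL : VL = (W.map (Int.castRingHom L)).toAffine)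
    {Vk : Affine (IsLocalRing.ResidueField A)}
    (hVk : Vk = (W.map (Int.castRingHom (IsLocalRing.ResidueField A))).toAffine)
    {R₁ R₂ : VL.Point} {S₁ S₂ : Vk.Point} (hR₁ : m • R₁ = 0) (hR₂ : m • R₂ = 0)
    (h₁ : RedTo A R₁ S₁) (h₂ : RedTo A R₂ S₂) : RedTo A (R₁ + R₂) (S₁ + S₂) := by
  subst hVL hVk
  have hint : IntegralCoeffs A.valuation (W.map (Int.castRingHom L)).toAffine :=
    integralCoeffs_map W
  rcases h₁ with ⟨rfl, rfl⟩ | ⟨a₁, b₁, h₁, h₁', rfl, rfl⟩
  · rw [zero_add, zero_add]; exact h₂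
  rcases h₂ with ⟨rfl, rfl⟩ | ⟨a₂, b₂, h₂, h₂', rfl, rfl⟩
  · rw [add_zero, add_zero]; exact redTo_some a₁ b₁ h₁ h₁'
  obtain ⟨hu₁, hv₁⟩ := val_two_y_eq_one W hm h₁ h₁' hR₁
  obtain ⟨hu₂, hv₂⟩ := val_two_y_eq_one W hm h₂ h₂' hR₂
  by_cases hx : IsLocalRing.residue A a₁ = IsLocalRing.residue A a₂
  · have hxv : A.valuation ((a₁ : L) - (a₂ : L)) < 1 := (res_eq_iff a₁ a₂).mp hx
    by_cases hy : IsLocalRing.residue A b₁ =
        (W.map (Int.castRingHom (IsLocalRing.ResidueField A))).toAffine.negY
          (IsLocalRing.residue A a₂) (IsLocalRing.residue A b₂)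
    · -- opposite points
      rw [Point.add_of_Y_eq hx hy]
      have hneg : -Point.some _ _ h₂ = Point.some _ _ h₁ := by
        rw [Point.neg_some]
        have hyv : A.valuation ((W.map (Int.castRingHom L)).toAffine.negY (a₂ : L) (b₂ : L)
            - (b₁ : L)) < 1 := by
          rw [← coe_negYA]
          refine (res_eq_iff (negYA W a₂ b₂) b₁).mp ?_
          rw [res_negYA, hy]
        have hxv' : A.valuation ((a₂ : L) - (a₁ : L)) < 1 := by
          rw [← Valuation.map_neg, neg_sub]; exact hxv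
        have hk : m • Point.some _ _ ((nonsingular_neg ..).mpr h₂) = 0 := by
          have h0 : m • (-Point.some _ _ h₂) = 0 := by rw [smul_neg, hR₂, neg_zero]
          rwa [Point.neg_some] at h0
        exact eq_of_congruent_of_nsmul_eq_zero hint ((nonsingular_neg ..).mpr h₂) h₁ hxv' hyv hv₁
          hvm hk hR₁
      rw [← hneg, neg_add_cancel]
      exact redTo_zero
    · -- the same point: tangent
      have hyy : IsLocalRing.residue A b₁ = IsLocalRing.residue A b₂ := by
        rcases Y_eq_of_X_eq h₁'.1 h₂'.1 hx with h | h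
        · exact h
        · exact absurd h hy
      have hyv : A.valuation ((b₁ : L) - (b₂ : L)) < 1 := (res_eq_iff b₁ b₂).mp hyy
      have heq := eq_of_congruent_of_nsmul_eq_zero hint h₁ h₂ hxv hyv hv₂ hvm hR₁ hR₂
      rw [Point.some.injEq] at heq
      obtain ⟨hab, hbb⟩ := heq
      have ha : a₁ = a₂ := Subtype.ext hab
      have hb : b₁ = b₂ := Subtype.ext hbb
      subst ha hb
      -- slope
      obtain ⟨u, hu⟩ := hu₁
      set l : A := (3 * a₁ ^ 2 + 2 * ((W.a₂ : ℤ) : A) * a₁ + ((W.a₄ : ℤ) : A)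
        - ((W.a₁ : ℤ) : A) * b₁) * ((u⁻¹ : Aˣ) : A) with hl
      have hyL : (b₁ : L) ≠ (W.map (Int.castRingHom L)).toAffine.negY (a₁ : L) (b₁ : L) := by
        intro h0
        apply hy
        rw [← res_negYA, ← coe_negYA] at *
        exact congrArg _ (Subtype.ext h0)
      have hucoe : ((u : A) : L) = (b₁ : L) -
          (W.map (Int.castRingHom L)).toAffine.negY (a₁ : L) (b₁ : L) := by
        rw [hu, ← coe_negYA]; push_cast; rfl
      have hune : ((u : A) : L) ≠ 0 := by
        rw [hucoe]; exact sub_ne_zero.mpr hyL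
      have hinv : (((u⁻¹ : Aˣ) : A) : L) = ((u : A) : L)⁻¹ := by
        have h1 : ((u : A) : L) * (((u⁻¹ : Aˣ) : A) : L) = 1 := by
          have h0 : ((((u : A) * ((u⁻¹ : Aˣ) : A)) : A) : L) = ((1 : A) : L) := by rw [u.mul_inv]
          exact_mod_cast h0
        exact eq_inv_of_mul_eq_one_right h1
      have hsL : (l : L) = (W.map (Int.castRingHom L)).toAffine.slope (a₁ : L) (a₁ : L)
          (b₁ : L) (b₁ : L) := by
        rw [slope_of_Y_ne rfl hyL, hl, ← hucoe, div_eq_mul_inv, ← hinv]
        simp only [WeierstrassCurve.map_a₁, WeierstrassCurve.map_a₂, WeierstrassCurve.map_a₄,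
          eq_intCast]
        push_cast
        rfl
      have hresu : IsLocalRing.residue A (u : A) = IsLocalRing.residue A b₁ -
          (W.map (Int.castRingHom (IsLocalRing.ResidueField A))).toAffine.negY
            (IsLocalRing.residue A a₁) (IsLocalRing.residue A b₁) := by
        rw [hu, map_sub, res_negYA]
      have hresinv : IsLocalRing.residue A ((u⁻¹ : Aˣ) : A) =
          (IsLocalRing.residue A (u : A))⁻¹ := by
        have h1 : IsLocalRing.residue A (u : A) * IsLocalRing.residue A ((u⁻¹ : Aˣ) : A) = 1 := by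
          rw [← map_mul, u.mul_inv, map_one]
        exact eq_inv_of_mul_eq_one_right h1
      have hsk : IsLocalRing.residue A l =
          (W.map (Int.castRingHom (IsLocalRing.ResidueField A))).toAffine.slope
            (IsLocalRing.residue A a₁) (IsLocalRing.residue A a₁) (IsLocalRing.residue A b₁)
            (IsLocalRing.residue A b₁) := by
        rw [slope_of_Y_ne rfl hy, hl, ← hresu, div_eq_mul_inv, ← hresinv]
        simp only [WeierstrassCurve.map_a₁, WeierstrassCurve.map_a₂, WeierstrassCurve.map_a₄,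
          eq_intCast, map_mul, map_sub, map_add, map_pow, map_ofNat, map_intCast]
      exact redTo_add_of_slope W h₁ h₁ h₁' h₁' (fun hxy => hyL hxy.2) (fun hxy => hy hxy.2)
        hsL hsk
  · -- chord
    have hunit : IsUnit (a₁ - a₂) := by
      rw [isUnit_iff_res_ne_zero, map_sub]
      exact sub_ne_zero.mpr hx
    obtain ⟨u, hu⟩ := hunit
    set l : A := (b₁ - b₂) * ((u⁻¹ : Aˣ) : A) with hl
    have hxL : (a₁ : L) ≠ (a₂ : L) := by
      intro h0
      exact hx (congrArg _ (Subtype.ext h0))
    have hucoe : ((u : A) : L) = (a₁ : L) - (a₂ : L) := by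
      rw [hu]; push_cast; rfl
    have hinv : (((u⁻¹ : Aˣ) : A) : L) = ((u : A) : L)⁻¹ := by
      have h1 : ((u : A) : L) * (((u⁻¹ : Aˣ) : A) : L) = 1 := by
        have h0 : ((((u : A) * ((u⁻¹ : Aˣ) : A)) : A) : L) = ((1 : A) : L) := by rw [u.mul_inv]
        exact_mod_cast h0
      exact eq_inv_of_mul_eq_one_right h1
    have hsL : (l : L) = (W.map (Int.castRingHom L)).toAffine.slope (a₁ : L) (a₂ : L)
        (b₁ : L) (b₂ : L) := by
      rw [slope_of_X_ne hxL, hl, ← hucoe, div_eq_mul_inv, ← hinv]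
      push_cast
      rfl
    have hresinv : IsLocalRing.residue A ((u⁻¹ : Aˣ) : A) =
        (IsLocalRing.residue A (u : A))⁻¹ := by
      have h1 : IsLocalRing.residue A (u : A) * IsLocalRing.residue A ((u⁻¹ : Aˣ) : A) = 1 := by
        rw [← map_mul, u.mul_inv, map_one]
      exact eq_inv_of_mul_eq_one_right h1
    have hsk : IsLocalRing.residue A l =
        (W.map (Int.castRingHom (IsLocalRing.ResidueField A))).toAffine.slope
          (IsLocalRing.residue A a₁) (IsLocalRing.residue A a₂) (IsLocalRing.residue A b₁)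
          (IsLocalRing.residue A b₂) := by
      rw [slope_of_X_ne hx, hl, map_mul, hresinv, hu, map_sub, map_sub, div_eq_mul_inv]
    exact redTo_add_of_slope W h₁ h₂ h₁' h₂' (fun hxy => hxL hxy.1) (fun hxy => hx hxy.1)
      hsL hsk

end Add

end Fermat.Agent.InertiaMult
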