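/-
S58, hedge for brick (b) (helper63): **transfer of the Frobenius relation from characteristic `r`
to the prime-to-`r` odd torsion of the generic fibre** (`ES/Q58/TraceCong20.RelQbar`).

The reduction relation `RedTo` (`InertiaMult.RedTo`) on the `m`-torsion (`m` odd, `r ∤ m`) of an
integral model with good reduction at `r` is total, additive, compatible with negation and integer
multiples, with Frobenius elements, and only `0` reduces to `0`.  Hence the relation
`F² - a_r F + r = 0` on the reduced curve over the residue field of a place `P ∣ r` of `ℚ̄`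
(brick (a)) implies `σ² - a_r σ + r = 0` on `W(ℚ̄)[m]` for every Frobenius element `σ` at `P`.
-/
import Mathlib
import Fermat.Agent.InertiaMult.RedTo
import Fermat.Agent.ES.Q58.TraceCong20

set_option autoImplicit false
set_option linter.unusedSectionVars false

open Polynomial WeierstrassCurve WeierstrassCurve.Affine

namespace Fermat.Agent.InertiaMult

open Fermat.Agent.S05.Inertia Fermat.Agent.S05.Kernel Fermat.Agent.ES.EC.CongE1_20
open Fermat.Agent.ES.EC Fermat.Agent.ES.Q58 Fermat.Agent.ES.EC.LiftTorsion29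

section General

variable {L : Type*} [Field L] [DecidableEq L] {A : ValuationSubring L}
  [DecidableEq (IsLocalRing.ResidueField A)] (W : WeierstrassCurve ℤ)

/-- Reduction is compatible with negation. -/
theorem redTo_neg {VL : Affine L} (hVL : VL = (W.map (Int.castRingHom L)).toAffine)
    {Vk : Affine (IsLocalRing.ResidueField A)}
    (hVk : Vk = (W.map (Int.castRingHom (IsLocalRing.ResidueField A))).toAffine)
    {R : VL.Point} {S : Vk.Point} (h : RedTo A R S) : RedTo A (-R) (-S) := by
  subst hVL hVk
  rcases h with ⟨rfl, rfl⟩ | ⟨a, b, h, h', rfl, rfl⟩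
  · rw [neg_zero, neg_zero]; exact redTo_zero
  · rw [Point.neg_some, Point.neg_some]
    have hY := coe_negYA (L := L) W a b
    have hY' := res_negYA (A := A) W a b
    have hns : (W.map (Int.castRingHom L)).toAffine.Nonsingular (a : L)
        ((negYA W a b : A) : L) := by
      rw [hY]; exact (nonsingular_neg ..).mpr h
    have hns' : (W.map (Int.castRingHom (IsLocalRing.ResidueField A))).toAffine.Nonsingular
        (IsLocalRing.residue A a) (IsLocalRing.residue A (negYA W a b)) := by
      rw [hY']; exact (nonsingular_neg ..).mpr h'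
    refine Or.inr ⟨a, negYA W a b, hns, hns', ?_, ?_⟩
    · simp only [Point.some.injEq, true_and]; exact hY.symm
    · simp only [Point.some.injEq, true_and]; exact hY'.symm

/-- Reduction is compatible with natural multiples (on odd torsion prime to the residue
characteristic). -/
theorem redTo_nsmul {m : ℕ} (hm : Odd m) (hvm : A.valuation ((m : ℕ) : L) = 1)
    {VL : Affine L} (hVL : VL = (W.map (Int.castRingHom L)).toAffine)
    {Vk : Affine (IsLocalRing.ResidueField A)}
    (hVk : Vk = (W.map (Int.castRingHom (IsLocalRing.ResidueField A))).toAffine)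
    {R : VL.Point} {S : Vk.Point} (hR : m • R = 0) (h : RedTo A R S) (n : ℕ) :
    RedTo A (n • R) (n • S) := by
  induction n with
  | zero => rw [zero_nsmul, zero_nsmul]; exact redTo_zero
  | succ n ih =>
    rw [succ_nsmul, succ_nsmul]
    have hnR : m • (n • R) = 0 := by rw [smul_comm, hR, smul_zero]
    exact redTo_add W hm hvm hVL hVk hnR hR ih h

/-- Reduction is compatible with integer multiples. -/
theorem redTo_zsmul {m : ℕ} (hm : Odd m) (hvm : A.valuation ((m : ℕ) : L) = 1)
    {VL : Affine L} (hVL : VL = (W.map (Int.castRingHom L)).toAffine)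
    {Vk : Affine (IsLocalRing.ResidueField A)}
    (hVk : Vk = (W.map (Int.castRingHom (IsLocalRing.ResidueField A))).toAffine)
    {R : VL.Point} {S : Vk.Point} (hR : m • R = 0) (h : RedTo A R S) (n : ℤ) :
    RedTo A (n • R) (n • S) := by
  obtain ⟨k, rfl | rfl⟩ := n.eq_nat_or_neg
  · rw [natCast_zsmul, natCast_zsmul]
    exact redTo_nsmul W hm hvm hVL hVk hR h k
  · rw [neg_smul, neg_smul, natCast_zsmul, natCast_zsmul]
    exact redTo_neg W hVL hVk (redTo_nsmul W hm hvm hVL hVk hR h k)

/-- Every torsion point of order prime to the residue characteristic has a reduction, at a place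
of good reduction. -/
theorem exists_redTo (hΔu : IsUnit ((W.Δ : ℤ) : A)) {m : ℕ}
    (hvm : A.valuation ((m : ℕ) : L) = 1)
    {VL : Affine L} (hVL : VL = (W.map (Int.castRingHom L)).toAffine)
    {Vk : Affine (IsLocalRing.ResidueField A)}
    (hVk : Vk = (W.map (Int.castRingHom (IsLocalRing.ResidueField A))).toAffine)
    {R : VL.Point} (hR : m • R = 0) : ∃ S : Vk.Point, RedTo A R S := by
  subst hVL hVk
  have hint : IntegralCoeffs A.valuation (W.map (Int.castRingHom L)).toAffine :=
    integralCoeffs_map W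
  rcases R with _ | ⟨x, y, h⟩
  · exact ⟨0, redTo_zero⟩
  have hvx : A.valuation x ≤ 1 := x_integral_of_nsmul_eq_zero hint h hvm hR
  have hvy : A.valuation y ≤ 1 := by
    by_contra hy
    exact absurd (vx_of_vy hint h.1 (not_le.mp hy)) (not_lt.mpr hvx)
  have hxA : x ∈ A := (A.valuation_le_one_iff x).mp hvx
  have hyA : y ∈ A := (A.valuation_le_one_iff y).mp hvy
  have hEqk := equation_residue A W ⟨x, hxA⟩ ⟨y, hyA⟩ h.1
  have hΔk : (W.map (Int.castRingHom (IsLocalRing.ResidueField A))).Δ ≠ 0 := by
    rw [WeierstrassCurve.map_Δ, eq_intCast, ← map_intCast (IsLocalRing.residue A)]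
    exact (IsLocalRing.residue_ne_zero_iff_isUnit _).mpr hΔu
  have hnsk := (equation_iff_nonsingular_of_Δ_ne_zero hΔk).mp hEqk
  exact ⟨Point.some _ _ hnsk, redTo_some ⟨x, hxA⟩ ⟨y, hyA⟩ h hnsk⟩

end General

section Frobenius

local notation "Qb" => AlgebraicClosure ℚ
local notation "GQ" => (AlgebraicClosure ℚ ≃ₐ[ℚ] AlgebraicClosure ℚ)

variable {P : ValuationSubring Qb} [DecidableEq (IsLocalRing.ResidueField P)]

/-- The residue of `σ a` for a Frobenius element `σ` at `P`. -/
theorem residue_frob {r : ℕ} {σ : GQ} (hσ : P.IsFrobeniusAt σ r) (a : P)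
    (hmem : σ (a : Qb) ∈ P) :
    IsLocalRing.residue P ⟨σ (a : Qb), hmem⟩ = (IsLocalRing.residue P a) ^ r := by
  set g : P.decompositionSubgroup ℚ := ⟨σ, hσ.mem_decompositionSubgroup⟩ with hg
  have h1 : g • (IsLocalRing.residue P a) = (IsLocalRing.residue P a) ^ r :=
    hσ.smul_residue_eq _
  rw [← IsLocalRing.ResidueField.residue_smul] at h1
  rw [← h1]
  rfl

/-- Reduction intertwines a Frobenius element at `P` with the Frobenius map of the reduced
curve. -/
theorem redTo_frob {r : ℕ} [Fact r.Prime] (E : WeierstrassCurve (ZMod r))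
    [Algebra (ZMod r) (IsLocalRing.ResidueField P)]
    (F : IsLocalRing.ResidueField P →ₐ[ZMod r] IsLocalRing.ResidueField P)
    (hF : ∀ x, F x = x ^ r) {σ : GQ} (hσ : P.IsFrobeniusAt σ r) (E' : WeierstrassCurve ℚ)
    {R : (E'⁄Qb).Point} {S : (E⁄(IsLocalRing.ResidueField P)).Point} (h : RedTo P R S) :
    RedTo P (σ • R) (Point.map (W' := E) F S) := by
  rcases h with ⟨rfl, rfl⟩ | ⟨a, b, h, h', rfl, rfl⟩
  · have h1 : σ • (0 : (E'⁄Qb).Point) = 0 := rfl
    rw [h1, map_zero]; exact redTo_zero
  · have hma : σ (a : Qb) ∈ P :=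
      (apply_mem_iff_of_mem_decomposition hσ.mem_decompositionSubgroup _).mpr a.2
    have hmb : σ (b : Qb) ∈ P :=
      (apply_mem_iff_of_mem_decomposition hσ.mem_decompositionSubgroup _).mpr b.2
    have h2 : (E'⁄Qb).Nonsingular (σ.toAlgHom (a : Qb)) (σ.toAlgHom (b : Qb)) :=
      (WeierstrassCurve.Affine.baseChange_nonsingular E' (f := σ.toAlgHom)
        σ.toAlgHom.injective _ _).mpr h
    have hmap : σ • (Point.some _ _ h : (E'⁄Qb).Point) = Point.some _ _ h2 := rfl
    rw [hmap, Point.map_some]
    have hra := residue_frob hσ a hma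
    have hrb := residue_frob hσ b hmb
    have h2' : (E⁄(IsLocalRing.ResidueField P)).Nonsingular
        (IsLocalRing.residue P ⟨σ (a : Qb), hma⟩) (IsLocalRing.residue P ⟨σ (b : Qb), hmb⟩) := by
      rw [hra, hrb, ← hF, ← hF]
      exact (WeierstrassCurve.Affine.baseChange_nonsingular E (f := F) F.injective _ _).mpr h'
    refine Or.inr ⟨⟨σ (a : Qb), hma⟩, ⟨σ (b : Qb), hmb⟩, h2, h2', rfl, ?_⟩
    simp only [Point.some.injEq]
    exact ⟨by rw [hra, hF], by rw [hrb, hF]⟩

end Frobenius

section Final

local notation "Qb" => AlgebraicClosure ℚ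
local notation "GQ" => (AlgebraicClosure ℚ ≃ₐ[ℚ] AlgebraicClosure ℚ)

/-- **The statement of brick (a)**: the Frobenius relation on an elliptic curve over `𝔽_r`, for
points over an arbitrary field extension (in `Type`). -/
def FrobRelStatement : Prop :=
  ∀ (r : ℕ) [Fact r.Prime] (E : WeierstrassCurve (ZMod r)), E.Δ ≠ 0 →
    ∀ (K : Type) [Field K] [Algebra (ZMod r) K] [DecidableEq K] (F : K →ₐ[ZMod r] K),
      (∀ x, F x = x ^ r) → ∀ Q : (E⁄K).Point,
        Point.map (W' := E) F (Point.map (W' := E) F Q)
          - ((r : ℤ) + 1 - (Nat.card E.toAffine.Point : ℤ)) • Point.map (W' := E) F Q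
          + (r : ℤ) • Q = 0

/-- **Brick (b)**: the Frobenius relation in characteristic `r` implies the Eichler–Shimura
relation on the odd prime-to-`r` torsion of the generic fibre. -/
theorem relQbar_of_frobRel (hrel : FrobRelStatement) (W : WeierstrassCurve ℤ) :
    TraceCong20.RelQbar W := by
  classical
  intro r hr hgood m hm hrm P σ hP hσ Q hQ
  have : Fact r.Prime := ⟨hr⟩
  let _ : Algebra (ZMod r) (IsLocalRing.ResidueField P) := (primeEmb P hr hP).toAlgebra
  have hchar : CharP (IsLocalRing.ResidueField P) r := charP_residueField P hr hP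
  have : ExpChar (IsLocalRing.ResidueField P) r := ExpChar.prime hr
  -- the Frobenius of the residue field
  let F : IsLocalRing.ResidueField P →ₐ[ZMod r] IsLocalRing.ResidueField P :=
    { frobenius (IsLocalRing.ResidueField P) r with
      commutes' := fun t => by
        change (primeEmb P hr hP t) ^ r = primeEmb P hr hP t
        exact primeEmb_pow P hr hP t }
  have hF : ∀ x, F x = x ^ r := fun x => rfl
  -- the two curves
  have hEΔ : (W.reductionMod r).Δ ≠ 0 := by
    unfold reductionMod
    rw [WeierstrassCurve.map_Δ, eq_intCast]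
    exact fun h => hgood ((ZMod.intCast_zmod_eq_zero_iff_dvd W.Δ r).mp h)
  have hVk : ((W.reductionMod r)⁄(IsLocalRing.ResidueField P)) =
      (W.map (Int.castRingHom (IsLocalRing.ResidueField P))).toAffine := by
    change ((W.map (Int.castRingHom (ZMod r))).map
      (algebraMap (ZMod r) (IsLocalRing.ResidueField P))) = _
    rw [WeierstrassCurve.map_map]
    congr 1
    exact RingHom.ext_int _ _
  have hVL := TorsionLift20.baseChange_eq_map W
  have hvm : P.valuation ((m : ℕ) : Qb) = 1 := valuation_natCast_eq_one hr hP hrm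
  have hΔu : IsUnit ((W.Δ : ℤ) : P) := isUnit_intCast_of_not_dvd P hr hP hgood
  -- the reduction of `Q`
  obtain ⟨S, hS⟩ := exists_redTo (A := P) W hΔu hvm hVL hVk hQ
  have hσtors : ∀ R : ((W.map (Int.castRingHom ℚ))⁄Qb).Point, m • R = 0 → m • (σ • R) = 0 := by
    intro R hR
    rw [WeierstrassCurve.Affine.Point.algEquiv_smul_def, ← map_nsmul, hR, map_zero]
  have h1 := redTo_frob (W.reductionMod r) F hF hσ (W.map (Int.castRingHom ℚ)) hS
  have h2 := redTo_frob (W.reductionMod r) F hF hσ (W.map (Int.castRingHom ℚ)) h1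
  have hQ1 := hσtors Q hQ
  have hQ2 := hσtors _ hQ1
  -- the three terms
  have t2 := redTo_zsmul W hm hvm hVL hVk hQ1 h1 (W.apOfModel r)
  have t3 := redTo_zsmul W hm hvm hVL hVk hQ hS (r : ℤ)
  have hk2 : m • (W.apOfModel r • (σ • Q)) = 0 := by
    rw [smul_comm, hQ1, zsmul_zero]
  have hk3 : m • ((r : ℤ) • Q) = 0 := by
    rw [smul_comm, hQ, zsmul_zero]
  have t12 := redTo_add W hm hvm hVL hVk hQ2 (by rw [neg_nsmul, hk2, neg_zero])
    h2 (redTo_neg W hVL hVk t2)
  have hk12 : m • (σ • σ • Q + -(W.apOfModel r • (σ • Q))) = 0 := by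
    rw [nsmul_add, hQ2, neg_nsmul, hk2, neg_zero, add_zero]
  have t123 := redTo_add W hm hvm hVL hVk hk12 hk3 t12 t3
  -- the relation in characteristic `r`
  have hrelS := hrel r (W.reductionMod r) hEΔ (IsLocalRing.ResidueField P) F hF S
  have hap : W.apOfModel r = (r : ℤ) + 1 - (Nat.card (W.reductionMod r).toAffine.Point : ℤ) := by
    unfold apOfModel traceOfFrobenius card
    rw [Nat.card_zmod]
  rw [← hap, sub_eq_add_neg] at hrelS
  rw [hrelS] at t123
  have hfin := t123.eq_zero
  rw [natCast_zsmul, ← sub_eq_add_neg] at hfin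
  exact hfin

end Final

end Fermat.Agent.InertiaMult
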